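/-
helper27, item 79 (S37) slice R0, generic function-field half, part FF1:
`AlgebraicCurve.HasPrincipalDivisors K F` for a function field `F / K` in one variable over an
algebraically closed field of characteristic `0` (`z` transcendental, `[F : K(z)] < ∞`).
-/
import Mathlib
import Fermat.Prelude.Def_AlgebraicCurve_DivisorClassGroup
import Fermat.Agent.S24.A0
import Fermat.Agent.S24.A1
import Fermat.Agent.S24.A1Deg
import Fermat.Agent.S24.PlaceBasic

set_option autoImplicit false
set_option linter.style.haveILetI false

noncomputable section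

open AlgebraicCurve IntermediateField

namespace H27FF

variable {K F : Type*} [Field K] [Field F] [Algebra K F]

/-- `K(f) = K(f⁻¹)`. -/
theorem h27ff_adjoin_inv (f : F) : K⟮f⁻¹⟯ = K⟮f⟯ := by
  apply le_antisymm
  · rw [IntermediateField.adjoin_le_iff]
    rintro x hx
    rw [Set.mem_singleton_iff] at hx
    subst hx
    exact inv_mem (IntermediateField.mem_adjoin_simple_self K f)
  · rw [IntermediateField.adjoin_le_iff]
    rintro x hx
    rw [Set.mem_singleton_iff] at hx
    subst hx
    have := inv_mem (IntermediateField.mem_adjoin_simple_self K x⁻¹)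
    rwa [inv_inv] at this

theorem h27ff_finrank_congr {E E' : IntermediateField K F} (h : E = E') :
    Module.finrank E F = Module.finrank E' F := by
  subst h; rfl

theorem h27ff_transcendental_inv {f : F} (hf : Transcendental K f) : Transcendental K f⁻¹ := by
  intro h
  apply hf
  have := h.inv
  rwa [inv_inv] at this

section Main

variable [IsAlgClosed K] [CharZero K]

/-- the sum of the orders of `f` over its zeros is `[F : K(f)]` (Finset form). -/
theorem h27ff_sum_zeros (z : F) [FiniteDimensional K⟮z⟯ F] (f : F) (hf : Transcendental K f)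
    (hfin : {v : Place K F | 0 < v.ord f}.Finite) :
    haveI := RH24.finiteDimensional_adjoin_of_transcendental z f hf
    ∑ v ∈ hfin.toFinset, v.ord f = (Module.finrank K⟮f⟯ F : ℤ) := by
  haveI := RH24.finiteDimensional_adjoin_of_transcendental z f hf
  rw [← RH24.sum_ord_eq_finrank f hf]
  rw [← finsum_mem_eq_finite_toFinset_sum (fun v : Place K F => v.ord f) hfin]
  exact (finsum_set_coe_eq_finsum_mem (s := {v : Place K F | 0 < v.ord f})
    (f := fun v : Place K F => v.ord f)).symm

/-- **FF1**: principal divisors exist and have degree `0`. -/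
theorem h27ff_exists_divisor (z : F) (hz : Transcendental K z) [FiniteDimensional K⟮z⟯ F]
    (f : F) (_hf0 : f ≠ 0) :
    ∃ D : Divisor K F, (∀ v : Place K F, D v = v.ord f) ∧ Divisor.degree D = 0 := by
  classical
  by_cases hf : Transcendental K f
  · have hfi : Transcendental K f⁻¹ := h27ff_transcendental_inv hf
    haveI h1 := RH24.finiteDimensional_adjoin_of_transcendental z f hf
    haveI h2 := RH24.finiteDimensional_adjoin_of_transcendental z f⁻¹ hfi
    have hZ : {v : Place K F | 0 < v.ord f}.Finite :=
      Set.finite_coe_iff.mp (RH24.finite_places_over f hf)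
    have hP : {v : Place K F | 0 < v.ord f⁻¹}.Finite :=
      Set.finite_coe_iff.mp (RH24.finite_places_over f⁻¹ hfi)
    have hdisj : Disjoint hZ.toFinset hP.toFinset := by
      rw [Finset.disjoint_left]
      intro v hv hv'
      rw [Set.Finite.mem_toFinset, Set.mem_ofPred_eq] at hv hv'
      rw [Place.ord_inv] at hv'
      omega
    let D : Divisor K F := Finsupp.onFinset (hZ.toFinset ∪ hP.toFinset) (fun v => v.ord f)
      (fun v hv => by
        rw [Finset.mem_union, Set.Finite.mem_toFinset, Set.Finite.mem_toFinset,
          Set.mem_ofPred_eq, Set.mem_ofPred_eq, Place.ord_inv]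
        omega)
    refine ⟨D, fun v => rfl, ?_⟩
    have hdeg : Divisor.degree D = ∑ v ∈ hZ.toFinset ∪ hP.toFinset, v.ord f * (v.deg : ℤ) := by
      show (Finsupp.liftAddHom fun v : Place K F => AddMonoidHom.mulRight (v.deg : ℤ)) D = _
      rw [Finsupp.liftAddHom_apply]
      exact Finsupp.onFinset_sum _ (fun v => by simp)
    rw [hdeg, Finset.sum_union hdisj]
    have e1 : ∑ v ∈ hZ.toFinset, v.ord f * (v.deg : ℤ) = (Module.finrank K⟮f⟯ F : ℤ) := by
      rw [← h27ff_sum_zeros z f hf hZ]
      refine Finset.sum_congr rfl fun v _ => ?_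
      rw [RH24.place_deg_eq_one z hz v]; simp
    have e2 : ∑ v ∈ hP.toFinset, v.ord f * (v.deg : ℤ) = -(Module.finrank K⟮f⁻¹⟯ F : ℤ) := by
      rw [← h27ff_sum_zeros z f⁻¹ hfi hP, ← Finset.sum_neg_distrib]
      refine Finset.sum_congr rfl fun v _ => ?_
      rw [RH24.place_deg_eq_one z hz v, Place.ord_inv]; simp
    rw [e1, e2, h27ff_finrank_congr (h27ff_adjoin_inv (K := K) f)]
    ring
  · -- `f` is algebraic over the algebraically closed `K`, hence constant
    have halg : IsAlgebraic K f := by
      by_contra h
      exact hf h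
    have hint : IsIntegral K f := halg.isIntegral
    have hdeg : (minpoly K f).degree = 1 :=
      IsAlgClosed.degree_eq_one_of_irreducible K (minpoly.irreducible hint)
    obtain ⟨c, hc⟩ := minpoly.mem_range_of_degree_eq_one K _ hdeg
    refine ⟨0, fun v => ?_, by simp⟩
    rw [← hc, RH24.h20_ord_algebraMap]
    rfl

/-- **FF1** (class form). -/
theorem h27ff_hasPrincipalDivisors (z : F) (hz : Transcendental K z) [FiniteDimensional K⟮z⟯ F] :
    HasPrincipalDivisors K F :=
  ⟨fun f hf => h27ff_exists_divisor z hz f hf⟩

end Main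

end H27FF

end
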