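/-
helper27, item 79 (S37) slice R0, generic function-field half, part FF2 (dictionary):
for a place `v` of `F / K` and a finite separable extension `F' / F`, the places of `F'` over `v`
are the nonzero primes of the integral closure `B` of `𝒪_v` in `F'`.
-/
import Mathlib
import Fermat.Prelude.Def_AlgebraicCurve_DivisorPushPull
import Fermat.Agent.S24.PlaceBasic
import Fermat.Agent.S24.A1Core
import Fermat.Agent.RR.L6Place

set_option autoImplicit false
set_option linter.style.haveILetI false
set_option linter.deprecated false
set_option linter.unusedSectionVars false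

noncomputable section

open AlgebraicCurve IsDedekindDomain
open scoped WithZero

namespace H27FF

variable {K F F' : Type*} [Field K] [Field F] [Field F'] [Algebra K F] [Algebra K F']
  [Algebra F F'] [IsScalarTower K F F']

theorem h27ff_tower (v : Place K F) : IsScalarTower K v.toValuationSubring F' :=
  IsScalarTower.of_algebraMap_eq fun k => by
    rw [IsScalarTower.algebraMap_apply K F F']
    rfl

attribute [local instance] h27ff_tower

section Dict

variable [FiniteDimensional F F'] [Algebra.IsSeparable F F']

theorem h27ff_isFractionRing (v : Place K F) :
    IsFractionRing (integralClosure v.toValuationSubring F') F' :=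
  integralClosure.isFractionRing_of_finite_extension F F'

theorem h27ff_isDedekindDomain (v : Place K F) :
    IsDedekindDomain (integralClosure v.toValuationSubring F') :=
  integralClosure.isDedekindDomain v.toValuationSubring F F'

theorem h27ff_finite (v : Place K F) :
    Module.Finite v.toValuationSubring (integralClosure v.toValuationSubring F') :=
  IsIntegralClosure.finite v.toValuationSubring F F' _

attribute [local instance] h27ff_isFractionRing h27ff_isDedekindDomain h27ff_finite

/-- elements of `B` lie in the valuation ring of every place over `v` -/
theorem h27ff_mem_of_restrict [Algebra.IsIntegral F F'] (v : Place K F) (w : Place K F')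
    (hw : w.restrict F = v)
    (b : integralClosure v.toValuationSubring F') :
    algebraMap (integralClosure v.toValuationSubring F') F' b ∈ w.toValuationSubring := by
  have hle : ∀ a : v.toValuationSubring,
      algebraMap v.toValuationSubring F' a ∈ w.toValuationSubring := by
    intro a
    have h1 : (a : F) ∈ (w.restrict F).toValuationSubring := hw ▸ a.2
    exact (Place.mem_restrict_iff w).mp h1
  letI : Algebra v.toValuationSubring w.toValuationSubring :=
    ((algebraMap v.toValuationSubring F').codRestrict w.toValuationSubring.toSubring hle).toAlgebra
  haveI : IsScalarTower v.toValuationSubring w.toValuationSubring F' :=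
    IsScalarTower.of_algebraMap_eq fun _ => rfl
  have hx : IsIntegral w.toValuationSubring (b : F') := (b.2 : IsIntegral _ _).tower_top
  obtain ⟨y, hy⟩ := IsIntegrallyClosed.isIntegral_iff.mp hx
  show (b : F') ∈ w.toValuationSubring
  rw [← hy]
  exact y.2

/-- the place of a prime of `B` restricts to `v` -/
theorem h27ff_restrict_placeOf [Algebra.IsIntegral F F'] (v : Place K F)
    (P : HeightOneSpectrum (integralClosure v.toValuationSubring F')) :
    (H27L6.h27_placeOf (F := F') K (integralClosure v.toValuationSubring F') P).restrict F
      = v := by
  symm
  apply Place.ext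
  refine ValuationSubring.eq_of_le_of_ne_top _ ?_ (Place.ne_top' _)
  intro a ha
  rw [Place.restrict_toValuationSubring, ValuationSubring.mem_comap]
  exact H27L6.h27_mem_placeOf (F := F') K (integralClosure v.toValuationSubring F') P
    (algebraMap v.toValuationSubring (integralClosure v.toValuationSubring F') ⟨a, ha⟩)

/-- every nonzero prime of `B` lies over the maximal ideal of `𝒪_v` -/
theorem h27ff_liesOver (v : Place K F)
    (P : HeightOneSpectrum (integralClosure v.toValuationSubring F')) :
    P.asIdeal.LiesOver (IsLocalRing.maximalIdeal v.toValuationSubring) := by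
  constructor
  have hne : P.asIdeal.comap
      (algebraMap v.toValuationSubring (integralClosure v.toValuationSubring F')) ≠ ⊥ := by
    intro h
    exact P.ne_bot (Ideal.eq_bot_of_comap_eq_bot h)
  have hprime : (P.asIdeal.comap
      (algebraMap v.toValuationSubring (integralClosure v.toValuationSubring F'))).IsPrime :=
    Ideal.comap_isPrime _ _
  exact (IsLocalRing.eq_maximalIdeal (hprime.isMaximal hne)).symm

theorem h27ff_maximalIdeal_ne_bot (v : Place K F) :
    IsLocalRing.maximalIdeal v.toValuationSubring ≠ ⊥ :=
  IsDiscreteValuationRing.not_a_field _

/-- the ramification index of `P` over `𝔪_v` is the ramification index of its place -/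
theorem h27ff_ramificationIdx [Algebra.IsIntegral F F'] (v : Place K F)
    (P : HeightOneSpectrum (integralClosure v.toValuationSubring F')) :
    (IsLocalRing.maximalIdeal v.toValuationSubring).ramificationIdx' P.asIdeal
      = (H27L6.h27_placeOf (F := F') K (integralClosure v.toValuationSubring F') P).ramificationIndex
          F := by
  set w := H27L6.h27_placeOf (F := F') K (integralClosure v.toValuationSubring F') P with hw
  obtain ⟨π, hπ⟩ := IsDiscreteValuationRing.exists_irreducible v.toValuationSubring
  have hπ0 : (π : F) ≠ 0 := by
    simpa [ne_eq, ZeroMemClass.coe_eq_zero] using hπ.ne_zero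
  have hπ' : algebraMap F F' (π : F) ≠ 0 := by simpa using hπ0
  have hord : w.ord (algebraMap F F' (π : F)) = (w.ramificationIndex F : ℤ) := by
    rw [w.ord_restrict (π : F), hw, h27ff_restrict_placeOf v P, v.ord_coe_irreducible hπ, mul_one]
  have hmap : Ideal.map
      (algebraMap v.toValuationSubring (integralClosure v.toValuationSubring F'))
      (IsLocalRing.maximalIdeal v.toValuationSubring)
      = Ideal.span {algebraMap v.toValuationSubring (integralClosure v.toValuationSubring F') π} := by
    rw [hπ.maximalIdeal_eq, Ideal.map_span, Set.image_singleton]
  have hval : P.intValuation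
      (algebraMap v.toValuationSubring (integralClosure v.toValuationSubring F') π)
      = WithZero.exp (-(w.ramificationIndex F : ℤ)) := by
    rw [← P.valuation_of_algebraMap (K := F'),
      ← H27L6.h27_placeOf_adicValuation (F := F') K (integralClosure v.toValuationSubring F') P]
    show w.adicValuation (algebraMap F F' (π : F)) = _
    rw [RH24.h20_adicValuation_eq _ hπ', hord]
  apply Ideal.ramificationIdx'_spec
  · rw [hmap, Ideal.span_singleton_le_iff_mem, ← P.intValuation_le_pow_iff_mem, hval]
  · rw [hmap, Ideal.span_singleton_le_iff_mem, ← P.intValuation_le_pow_iff_mem, hval,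
      WithZero.exp_le_exp]
    push_cast
    omega

/-- at a place of degree one, every integral element is congruent to a constant -/
theorem h27ff_exists_const (w : Place K F') (hdeg : w.deg = 1) (u : w.toValuationSubring) :
    ∃ c : K, w.adicValuation ((u : F') - algebraMap K F' c) < 1 := by
  have htop : (⊥ : Subalgebra K w.ResidueField) = ⊤ :=
    Subalgebra.bot_eq_top_of_finrank_eq_one hdeg
  have hx : IsLocalRing.residue _ u ∈ (⊥ : Subalgebra K w.ResidueField) := htop ▸ Algebra.mem_top
  obtain ⟨c, hc⟩ := Algebra.mem_bot.mp hx
  refine ⟨c, ?_⟩
  have h3 : IsLocalRing.residue w.toValuationSubring (u - algebraMap K w.toValuationSubring c)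
      = 0 := by
    rw [map_sub, sub_eq_zero, ← hc]
    rfl
  rw [IsLocalRing.residue_eq_zero_iff] at h3
  exact (RH24.h20_mem_maximalIdeal_iff w _).mp h3

attribute [local instance] Ideal.Quotient.field

/-- the inertia degree of `P` over `𝔪_v` is one if its place has degree one -/
theorem h27ff_inertiaDeg [Algebra.IsIntegral F F'] (v : Place K F)
    (P : HeightOneSpectrum (integralClosure v.toValuationSubring F'))
    (hdeg : (H27L6.h27_placeOf (F := F') K (integralClosure v.toValuationSubring F') P).deg = 1) :
    (IsLocalRing.maximalIdeal v.toValuationSubring).inertiaDeg' P.asIdeal = 1 := by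
  haveI := h27ff_liesOver v P
  rw [Ideal.inertiaDeg'_algebraMap]
  haveI : Nontrivial (integralClosure v.toValuationSubring F' ⧸ P.asIdeal) :=
    Ideal.Quotient.nontrivial_iff.mpr P.isPrime.ne_top
  refine finrank_eq_one (1 : integralClosure v.toValuationSubring F' ⧸ P.asIdeal) one_ne_zero
    (fun x => ?_)
  obtain ⟨b, rfl⟩ := Ideal.Quotient.mk_surjective x
  obtain ⟨c, hc⟩ := h27ff_exists_const _ hdeg
    ⟨algebraMap (integralClosure v.toValuationSubring F') F' b,
      H27L6.h27_mem_placeOf (F := F') K (integralClosure v.toValuationSubring F') P b⟩
  refine ⟨Ideal.Quotient.mk _ (algebraMap K v.toValuationSubring c), ?_⟩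
  rw [Algebra.smul_def, mul_one, Ideal.Quotient.algebraMap_mk_of_liesOver]
  symm
  rw [← sub_eq_zero, ← RingHom.map_sub, Ideal.Quotient.eq_zero_iff_mem,
    ← H27L6.h27_placeOf_adicValuation_lt_one_iff (F := F') K]
  rw [map_sub]
  have h4 : algebraMap (integralClosure v.toValuationSubring F') F'
      (algebraMap v.toValuationSubring (integralClosure v.toValuationSubring F')
        (algebraMap K v.toValuationSubring c)) = algebraMap K F' c := by
    rw [IsScalarTower.algebraMap_apply K F F']
    rfl
  rw [h4]
  exact hc

end Dict

end H27FF

end
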