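/-
helper27, item 79 (S37) slice R0, generic function-field half, part FF2:
the fundamental identity `∑_{w | v} e(w|v) f(w|v) = [F' : F]` for places.
-/
import Mathlib
import Fermat.Prelude.Def_AlgebraicCurve_DivisorPushPull
import Fermat.Agent.FF.Fiber

set_option autoImplicit false
set_option linter.style.haveILetI false
set_option linter.deprecated false
set_option linter.unusedSectionVars false

noncomputable section

open AlgebraicCurve IsDedekindDomain
open scoped WithZero

namespace H27FF

variable {K F F' : Type*} [Field K] [Field F] [Field F'] [Algebra K F] [Algebra K F']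
  [Algebra F F'] [IsScalarTower K F F']

attribute [local instance] h27ff_tower h27ff_isFractionRing h27ff_isDedekindDomain h27ff_finite

section Sum

variable [FiniteDimensional F F'] [Algebra.IsSeparable F F'] [Algebra.IsIntegral F F']

theorem h27ff_inertiaDeg_place (w : Place K F') (hdeg : w.deg = 1) : w.inertiaDeg F = 1 := by
  have h := w.deg_restrict_mul_inertiaDeg (F := F)
  rw [hdeg] at h
  exact Nat.eq_one_of_mul_eq_one_left h

variable [HasPrincipalDivisors K F']

/-- **FF2** (generic form): `∑_{w | v} e(w|v) f(w|v) = [F' : F]` when all places of `F'` have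
degree one. -/
theorem h27ff_sum_ramification_inertia (hdeg : ∀ w : Place K F', w.deg = 1) (v : Place K F) :
    ∑ w ∈ v.fiber F', (w.ramificationIndex F : ℤ) * (w.inertiaDeg F : ℤ)
      = (Module.finrank F F' : ℤ) := by
  have hp0 := h27ff_maximalIdeal_ne_bot v
  have hsum := Ideal.sum_ramification_inertia (R := v.toValuationSubring)
    (integralClosure v.toValuationSubring F') F F'
    (p := IsLocalRing.maximalIdeal v.toValuationSubring) hp0
  rw [← hsum]
  push_cast
  refine Finset.sum_bij
    (fun w hw => (H27L6.h27_primeOfPlace w
      (h27ff_mem_of_restrict v w (Place.mem_fiber.mp hw))).asIdeal) ?_ ?_ ?_ ?_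
  · intro w hw
    rw [IsDedekindDomain.mem_primesOverFinset_iff hp0]
    exact ⟨(H27L6.h27_primeOfPlace w _).isPrime, h27ff_liesOver v _⟩
  · intro w hw w' hw' h
    have h' : H27L6.h27_primeOfPlace w (h27ff_mem_of_restrict v w (Place.mem_fiber.mp hw))
        = H27L6.h27_primeOfPlace w' (h27ff_mem_of_restrict v w' (Place.mem_fiber.mp hw')) :=
      HeightOneSpectrum.ext h
    rw [← H27L6.h27_placeOf_primeOfPlace K (integralClosure v.toValuationSubring F') w
      (h27ff_mem_of_restrict v w (Place.mem_fiber.mp hw)),
      ← H27L6.h27_placeOf_primeOfPlace K (integralClosure v.toValuationSubring F') w'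
      (h27ff_mem_of_restrict v w' (Place.mem_fiber.mp hw')), h']
  · intro P hP
    rw [IsDedekindDomain.mem_primesOverFinset_iff hp0] at hP
    obtain ⟨hprime, hlies⟩ := hP
    have hne : P ≠ ⊥ := by
      rintro rfl
      apply hp0
      rw [hlies.over, Ideal.under_def]
      refine Ideal.comap_bot_of_injective _ ?_
      intro a b h
      have h1 : algebraMap F F' (a : F) = algebraMap F F' (b : F) := congrArg Subtype.val h
      exact Subtype.ext ((algebraMap F F').injective h1)
    let P' : HeightOneSpectrum (integralClosure v.toValuationSubring F') := ⟨P, hprime, hne⟩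
    refine ⟨H27L6.h27_placeOf (F := F') K _ P', Place.mem_fiber.mpr (h27ff_restrict_placeOf v P'),
      ?_⟩
    show (H27L6.h27_primeOfPlace (H27L6.h27_placeOf (F := F') K _ P') _).asIdeal = P
    rw [H27L6.h27_primeOfPlace_placeOf]
  · intro w hw
    set P := H27L6.h27_primeOfPlace w (h27ff_mem_of_restrict v w (Place.mem_fiber.mp hw)) with hP
    have hPw : H27L6.h27_placeOf (F := F') K _ P = w :=
      H27L6.h27_placeOf_primeOfPlace K (integralClosure v.toValuationSubring F') w _
    have h1 := h27ff_ramificationIdx v P
    have h2 := h27ff_inertiaDeg v P (by rw [hPw]; exact hdeg w)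
    rw [hPw] at h1
    show _ = ((IsLocalRing.maximalIdeal v.toValuationSubring).ramificationIdx' P.asIdeal : ℤ)
      * ((IsLocalRing.maximalIdeal v.toValuationSubring).inertiaDeg' P.asIdeal : ℤ)
    rw [h1, h2, h27ff_inertiaDeg_place w (hdeg w)]

/-- **FF2** (class form). -/
theorem h27ff_sumRamificationInertia (hdeg : ∀ w : Place K F', w.deg = 1) :
    SumRamificationInertia K F F' :=
  ⟨fun v => h27ff_sum_ramification_inertia hdeg v⟩

/-- **FF2** (class form, fundamental identity). -/
theorem h27ff_fundamentalIdentity (hdeg : ∀ w : Place K F', w.deg = 1) :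
    FundamentalIdentity K F F' :=
  haveI := h27ff_sumRamificationInertia (F := F) hdeg
  inferInstance

end Sum

end H27FF

end
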