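/-
helper27, item 79 (S37) slice R0, generic function-field half: FF0 (a finite extension of a
function field is a function field) and the characteristic-zero forms of FF1, FF2.
-/
import Mathlib
import Fermat.Prelude.Def_AlgebraicCurve_DivisorPushPull
import Fermat.Agent.S24.A0
import Fermat.Agent.S24.A1Deg
import Fermat.Agent.FF.PrincipalDivisors
import Fermat.Agent.FF.SumRam

set_option autoImplicit false
set_option linter.style.haveILetI false
set_option linter.unusedSectionVars false

noncomputable section

open AlgebraicCurve IntermediateField

namespace H27FF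

variable {K F F' : Type*} [Field K] [Field F] [Field F'] [Algebra K F] [Algebra K F']
  [Algebra F F'] [IsScalarTower K F F']

theorem h27ff_transcendental_algebraMap {z : F} (hz : Transcendental K z) :
    Transcendental K (algebraMap F F' z) := by
  intro h
  apply hz
  obtain ⟨p, hp0, hp⟩ := h
  refine ⟨p, hp0, ?_⟩
  apply (algebraMap F F').injective
  rw [map_zero, ← hp]
  exact (Polynomial.aeval_algebraMap_apply F' z p).symm

/-- **FF0**: a finite extension of a function field is a function field. -/
theorem h27ff_finiteDimensional_top (z : F) [FiniteDimensional K⟮z⟯ F] [FiniteDimensional F F'] :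
    FiniteDimensional K⟮algebraMap F F' z⟯ F' := by
  let φ : F →ₐ[K] F' := IsScalarTower.toAlgHom K F F'
  have hmap : (K⟮z⟯).map φ = K⟮algebraMap F F' z⟯ := by
    rw [IntermediateField.adjoin_map, Set.image_singleton]
    rfl
  let e₁ : K⟮z⟯ ≃+* K⟮algebraMap F F' z⟯ :=
    ((IntermediateField.equivMap K⟮z⟯ φ).trans (IntermediateField.equivOfEq hmap)).toRingEquiv
  haveI : FiniteDimensional K⟮z⟯ F' := FiniteDimensional.trans K⟮z⟯ F F'
  exact Module.Finite.of_equiv_equiv e₁ (RingEquiv.refl F') (by ext x; rfl)

section CharZero

variable [IsAlgClosed K] [CharZero K]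

/-- all places of a finite extension of a function field have degree one -/
theorem h27ff_deg_eq_one_top (z : F) (hz : Transcendental K z) [FiniteDimensional K⟮z⟯ F]
    [FiniteDimensional F F'] (w : Place K F') : w.deg = 1 := by
  haveI := h27ff_finiteDimensional_top (K := K) (F' := F') z
  exact RH24.place_deg_eq_one (algebraMap F F' z) (h27ff_transcendental_algebraMap hz) w

theorem h27ff_hasPrincipalDivisors_top (z : F) (hz : Transcendental K z)
    [FiniteDimensional K⟮z⟯ F] [FiniteDimensional F F'] : HasPrincipalDivisors K F' := by
  haveI := h27ff_finiteDimensional_top (K := K) (F' := F') z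
  exact h27ff_hasPrincipalDivisors (algebraMap F F' z) (h27ff_transcendental_algebraMap hz)

theorem h27ff_isSeparable (F F' : Type*) [Field F] [Field F'] [Algebra K F]
    [Algebra F F'] [FiniteDimensional F F'] : Algebra.IsSeparable F F' := by
  haveI : CharZero F := charZero_of_injective_algebraMap (algebraMap K F).injective
  infer_instance

/-- **FF2** in characteristic zero. -/
theorem h27ff_sumRamificationInertia_charZero (z : F) (hz : Transcendental K z)
    [FiniteDimensional K⟮z⟯ F] [FiniteDimensional F F'] [Algebra.IsIntegral F F']
    [HasPrincipalDivisors K F'] : SumRamificationInertia K F F' := by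
  haveI := h27ff_isSeparable (K := K) F F'
  exact h27ff_sumRamificationInertia (fun w => h27ff_deg_eq_one_top z hz w)

/-- **FF2** in characteristic zero (fundamental identity). -/
theorem h27ff_fundamentalIdentity_charZero (z : F) (hz : Transcendental K z)
    [FiniteDimensional K⟮z⟯ F] [FiniteDimensional F F'] [Algebra.IsIntegral F F']
    [HasPrincipalDivisors K F'] : FundamentalIdentity K F F' := by
  haveI := h27ff_isSeparable (K := K) F F'
  exact h27ff_fundamentalIdentity (fun w => h27ff_deg_eq_one_top z hz w)

end CharZero

end H27FF

end
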