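/-
helper27, item 79 (S37) slice R0, generic function-field half, towards FF3:
the equivalence between the nonzero primes of `B` (integral closure of `𝒪_v` in `F'`) and the
places of `F'` over `v`, and the resulting change of variables in sums over the fibre.
-/
import Mathlib
import Fermat.Prelude.Def_AlgebraicCurve_DivisorPushPull
import Fermat.Agent.FF.Fiber

set_option autoImplicit false
set_option linter.style.haveILetI false
set_option linter.deprecated false
set_option linter.unusedSectionVars false

noncomputable section

open AlgebraicCurve IsDedekindDomain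
open scoped WithZero

namespace H27FF

variable {K F F' : Type*} [Field K] [Field F] [Field F'] [Algebra K F] [Algebra K F']
  [Algebra F F'] [IsScalarTower K F F']

attribute [local instance] h27ff_tower h27ff_isFractionRing h27ff_isDedekindDomain h27ff_finite

section Equiv

variable [FiniteDimensional F F'] [Algebra.IsSeparable F F'] [Algebra.IsIntegral F F']

/-- nonzero primes of `B` ↔ places of `F'` over `v` -/
def h27ff_fiberEquiv (v : Place K F) :
    HeightOneSpectrum (integralClosure v.toValuationSubring F') ≃
      {w : Place K F' // w.restrict F = v} where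
  toFun P := ⟨H27L6.h27_placeOf (F := F') K (integralClosure v.toValuationSubring F') P,
    h27ff_restrict_placeOf v P⟩
  invFun w := H27L6.h27_primeOfPlace w.1 (h27ff_mem_of_restrict v w.1 w.2)
  left_inv P := H27L6.h27_primeOfPlace_placeOf K _ P
  right_inv w := Subtype.ext (H27L6.h27_placeOf_primeOfPlace K _ w.1 _)

@[simp]
theorem h27ff_fiberEquiv_apply (v : Place K F)
    (P : HeightOneSpectrum (integralClosure v.toValuationSubring F')) :
    ((h27ff_fiberEquiv v P : {w : Place K F' // w.restrict F = v}) : Place K F')
      = H27L6.h27_placeOf (F := F') K (integralClosure v.toValuationSubring F') P := rfl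

variable [HasPrincipalDivisors K F']

theorem h27ff_finite_primes (v : Place K F) :
    Finite (HeightOneSpectrum (integralClosure v.toValuationSubring F')) := by
  haveI : Finite {w : Place K F' // w.restrict F = v} :=
    Set.finite_coe_iff.mpr (Place.restrict_fiber_finite v)
  exact Finite.of_equiv _ (h27ff_fiberEquiv (F' := F') v).symm

/-- change of variables: sums over the fibre are sums over the primes of `B` -/
theorem h27ff_sum_fiber (v : Place K F) (g : Place K F' → ℤ)
    [Fintype (HeightOneSpectrum (integralClosure v.toValuationSubring F'))] :
    ∑ w ∈ v.fiber F', g w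
      = ∑ P : HeightOneSpectrum (integralClosure v.toValuationSubring F'),
          g (H27L6.h27_placeOf (F := F') K (integralClosure v.toValuationSubring F') P) := by
  classical
  refine (Finset.sum_bij (fun P _ => H27L6.h27_placeOf (F := F') K _ P) ?_ ?_ ?_ ?_).symm
  · intro P _
    exact Place.mem_fiber.mpr (h27ff_restrict_placeOf v P)
  · intro P _ Q _ h
    exact H27L6.h27_placeOf_injective K _ h
  · intro w hw
    refine ⟨H27L6.h27_primeOfPlace w (h27ff_mem_of_restrict v w (Place.mem_fiber.mp hw)),
      Finset.mem_univ _, H27L6.h27_placeOf_primeOfPlace K _ w _⟩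
  · intro P _
    rfl

/-- the pushforward of the divisor of `x` at `v`, as a sum over the fibre -/
theorem h27ff_pushforward_eq_sum {x : F'} (D : Divisor K F') (hD : ∀ w, D w = w.ord x)
    (v : Place K F) :
    Divisor.pushforward F D v = ∑ w ∈ v.fiber F', w.ord x * (w.inertiaDeg F : ℤ) := by
  classical
  rw [Divisor.pushforward_apply]
  rw [← Finset.sum_filter]
  refine Finset.sum_subset_zero_on_sdiff ?_ ?_ ?_
  · intro w hw
    rw [Finset.mem_filter] at hw
    exact Place.mem_fiber.mpr hw.2
  · intro w hw
    rw [Finset.mem_sdiff, Finset.mem_filter, Place.mem_fiber] at hw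
    have h0 : D w = 0 := by
      by_contra h
      exact hw.2 ⟨Finsupp.mem_support_iff.mpr h, hw.1⟩
    rw [← hD, h0, zero_mul]
  · intro w _
    rw [hD]

end Equiv

end H27FF

end
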