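import Mathlib

/-!
# The norm formula for adic valuations in an AKLB setting (helper2, for FF3 / item 79 R0)

`A`, `B` Dedekind domains, `B` a finite torsion-free `A`-algebra, `K = Frac A`, `L = Frac B`.
For a height-one prime `p` of `A` and the finite set `T` of the height-one primes of `B` over `p`:

  `p.valuation K (N_{L/K} x) = ∏_{P ∈ T} (P.valuation L x) ^ f(P|p)`.

Pure Mathlib (`Ideal.relNorm`).
-/

set_option autoImplicit false
set_option linter.style.haveILetI false

noncomputable section

open IsDedekindDomain HeightOneSpectrum Ideal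

namespace H2NV

section ideal

variable {A B : Type*} [CommRing A] [IsDedekindDomain A] [CommRing B] [IsDedekindDomain B]
  [Algebra A B] [Module.Finite A B] [Module.IsTorsionFree A B] [PerfectField (FractionRing A)]

omit [Algebra A B] [Module.Finite A B] [Module.IsTorsionFree A B] [PerfectField (FractionRing A)]
  [IsDedekindDomain A] [CommRing A] in
/-- multiplicity of a prime `P` in a different prime `Q` -/
theorem h2nv_multiplicity_prime_ne (P : HeightOneSpectrum B) (Q : Ideal B) (hQ : Prime Q)
    (h : P.asIdeal ≠ Q) : multiplicity P.asIdeal Q = 0 := by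
  rw [multiplicity_eq_zero]
  intro hdvd
  apply h
  have hQ0 : Q ≠ ⊥ := hQ.ne_zero
  have hQp : Q.IsPrime := (Ideal.prime_iff_isPrime hQ0).1 hQ
  have hQm : Q.IsMaximal := hQp.isMaximal hQ0
  have hle : Q ≤ P.asIdeal := Ideal.dvd_iff_le.1 hdvd
  exact (hQm.eq_of_le P.isPrime.ne_top hle).symm

/-- multiplicity of `p` in the relative norm of a prime `Q` over `p` -/
theorem h2nv_multiplicity_relNorm_prime (p : HeightOneSpectrum A) (Q : Ideal B) (hQ : Prime Q)
    (h : Q.LiesOver p.asIdeal) :
    multiplicity p.asIdeal (relNorm A Q) = Q.inertiaDeg A := by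
  have hQ0 : Q ≠ ⊥ := hQ.ne_zero
  have hQp : Q.IsPrime := (Ideal.prime_iff_isPrime hQ0).1 hQ
  haveI hQm : Q.IsMaximal := hQp.isMaximal hQ0
  haveI : (Q.under A).IsMaximal := Ideal.IsMaximal.under A Q
  haveI : Q.LiesOver (Q.under A) := Ideal.over_under Q
  have hrel : relNorm A Q = (Q.under A) ^ Q.inertiaDeg A :=
    Ideal.relNorm_eq_pow_of_isMaximal Q (Q.under A)
  rw [hrel]
  have hp : p.asIdeal = Q.under A := (Ideal.liesOver_iff Q p.asIdeal).1 h
  rw [← hp]
  exact multiplicity_pow_self_of_prime p.prime _

/-- multiplicity of `p` in the relative norm of a prime `Q` not over `p` -/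
theorem h2nv_multiplicity_relNorm_prime_not (p : HeightOneSpectrum A) (Q : Ideal B) (hQ : Prime Q)
    (h : ¬ Q.LiesOver p.asIdeal) :
    multiplicity p.asIdeal (relNorm A Q) = 0 := by
  have hQ0 : Q ≠ ⊥ := hQ.ne_zero
  have hQp : Q.IsPrime := (Ideal.prime_iff_isPrime hQ0).1 hQ
  haveI hQm : Q.IsMaximal := hQp.isMaximal hQ0
  haveI : (Q.under A).IsMaximal := Ideal.IsMaximal.under A Q
  haveI : Q.LiesOver (Q.under A) := Ideal.over_under Q
  have hrel : relNorm A Q = (Q.under A) ^ Q.inertiaDeg A :=
    Ideal.relNorm_eq_pow_of_isMaximal Q (Q.under A)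
  rw [hrel, multiplicity_eq_zero]
  intro hdvd
  apply h
  have h1 : p.asIdeal ∣ Q.under A := p.prime.dvd_of_dvd_pow hdvd
  have hle : Q.under A ≤ p.asIdeal := Ideal.dvd_iff_le.1 h1
  have heq : Q.under A = p.asIdeal :=
    (Ideal.IsMaximal.under A Q).eq_of_le p.isPrime.ne_top hle
  exact (Ideal.liesOver_iff Q p.asIdeal).2 heq.symm

/-- **the multiplicity of `p` in a relative norm** -/
theorem multiplicity_relNorm (p : HeightOneSpectrum A) (T : Finset (HeightOneSpectrum B))
    (hT : ∀ P : HeightOneSpectrum B, P ∈ T ↔ P.asIdeal.LiesOver p.asIdeal)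
    (I : Ideal B) (hI : I ≠ ⊥) :
    multiplicity p.asIdeal (relNorm A I) =
      ∑ P ∈ T, P.asIdeal.inertiaDeg A * multiplicity P.asIdeal I := by
  classical
  induction I using UniqueFactorizationMonoid.induction_on_prime with
  | h₁ => exact absurd rfl hI
  | h₂ x hx =>
    have hx' : x = ⊤ := Ideal.isUnit_iff.1 hx
    subst hx'
    rw [Ideal.relNorm_top]
    have h1 : multiplicity p.asIdeal (⊤ : Ideal A) = 0 := by
      rw [multiplicity_eq_zero, Ideal.dvd_iff_le, top_le_iff]
      exact p.isPrime.ne_top
    rw [h1]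
    symm
    apply Finset.sum_eq_zero
    intro P _
    have h2 : multiplicity P.asIdeal (⊤ : Ideal B) = 0 := by
      rw [multiplicity_eq_zero, Ideal.dvd_iff_le, top_le_iff]
      exact P.isPrime.ne_top
    rw [h2, mul_zero]
  | h₃ J Q hJ hQ ih =>
    have ih' := ih hJ
    have hQ0 : Q ≠ ⊥ := hQ.ne_zero
    have hQp : Q.IsPrime := (Ideal.prime_iff_isPrime hQ0).1 hQ
    have hrel0 : relNorm A (Q * J) ≠ ⊥ := by
      rw [Ne, Ideal.relNorm_eq_bot_iff]
      exact hI
    rw [map_mul, multiplicity_mul p.prime
      (FiniteMultiplicity.of_prime_left p.prime (by rwa [map_mul] at hrel0)), ih']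
    have hsum : ∀ P ∈ T, P.asIdeal.inertiaDeg A * multiplicity P.asIdeal (Q * J) =
        (if P.asIdeal = Q then Q.inertiaDeg A else 0) +
          P.asIdeal.inertiaDeg A * multiplicity P.asIdeal J := by
      intro P _
      rw [multiplicity_mul P.prime (FiniteMultiplicity.of_prime_left P.prime hI), mul_add]
      congr 1
      split_ifs with h
      · rw [h, multiplicity_self, mul_one]
      · rw [h2nv_multiplicity_prime_ne P Q hQ h, mul_zero]
    rw [Finset.sum_congr rfl hsum, Finset.sum_add_distrib]
    congr 1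
    -- the indicator sum
    by_cases hlies : Q.LiesOver p.asIdeal
    · rw [h2nv_multiplicity_relNorm_prime p Q hQ hlies]
      let Q' : HeightOneSpectrum B := ⟨Q, hQp, hQ0⟩
      have hQ'T : Q' ∈ T := (hT Q').2 hlies
      rw [Finset.sum_eq_single_of_mem Q' hQ'T]
      · rw [if_pos rfl]
      · intro P _ hP
        rw [if_neg]
        intro h
        exact hP (HeightOneSpectrum.ext h)
    · rw [h2nv_multiplicity_relNorm_prime_not p Q hQ hlies]
      symm
      apply Finset.sum_eq_zero
      intro P hP
      rw [if_neg]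
      intro h
      apply hlies
      rw [← h]
      exact (hT P).1 hP

end ideal

section element

variable {A K L B : Type*} [CommRing A] [IsDedekindDomain A] [CommRing B] [IsDedekindDomain B]
  [Algebra A B] [Module.Finite A B] [Module.IsTorsionFree A B] [PerfectField (FractionRing A)]
  [Field K] [Field L] [Algebra K L] [Algebra A K] [IsFractionRing A K] [Algebra A L]
  [IsScalarTower A K L] [Algebra B L] [IsFractionRing B L] [IsScalarTower A B L]
  [FiniteDimensional K L]

omit [PerfectField (FractionRing A)] [Module.IsTorsionFree A B] [IsDedekindDomain A]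
  [FiniteDimensional K L] [IsFractionRing A K] [IsScalarTower A K L] [Algebra K L] [Algebra A K] in
theorem h2nv_isIntegralClosure : IsIntegralClosure B A L :=
  haveI : Algebra.IsIntegral A B := Algebra.IsIntegral.of_finite A B
  IsIntegralClosure.of_isIntegrallyClosed B A L

omit [PerfectField (FractionRing A)] in
theorem h2nv_algebraMap_intNorm (b : B) :
    algebraMap A K (Algebra.intNorm A B b) = Algebra.norm K (algebraMap B L b) := by
  haveI : Algebra.IsIntegral A B := Algebra.IsIntegral.of_finite A B
  haveI := h2nv_isIntegralClosure (A := A) (L := L) (B := B)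
  exact Algebra.algebraMap_intNorm (A := A) (K := K) (L := L) (B := B) b

omit [PerfectField (FractionRing A)] [Field K] [Field L] [Algebra K L] [Algebra A K]
  [IsFractionRing A K] [Algebra A L] [IsScalarTower A K L] [Algebra B L] [IsFractionRing B L]
  [IsScalarTower A B L] [FiniteDimensional K L] in
theorem h2nv_intNorm_ne_zero (b : B) (hb : b ≠ 0) : Algebra.intNorm A B b ≠ 0 := by
  intro h0
  have hspan : Ideal.span {b} ≠ (⊥ : Ideal B) := by
    rwa [Ne, Ideal.span_singleton_eq_bot]
  apply hspan
  rw [← Ideal.relNorm_eq_bot_iff (R := A), Ideal.relNorm_singleton, h0]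
  simp

omit [Field K] [Field L] [Algebra K L] [Algebra A K]
  [IsFractionRing A K] [Algebra A L] [IsScalarTower A K L] [Algebra B L] [IsFractionRing B L]
  [IsScalarTower A B L] [FiniteDimensional K L] in
/-- the norm formula on integral elements -/
theorem intValuation_intNorm (p : HeightOneSpectrum A) (T : Finset (HeightOneSpectrum B))
    (hT : ∀ P : HeightOneSpectrum B, P ∈ T ↔ P.asIdeal.LiesOver p.asIdeal)
    (b : B) (hb : b ≠ 0) :
    p.intValuation (Algebra.intNorm A B b) =
      ∏ P ∈ T, P.intValuation b ^ P.asIdeal.inertiaDeg A := by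
  classical
  have hN : Algebra.intNorm A B b ≠ 0 := h2nv_intNorm_ne_zero b hb
  have hspan : Ideal.span {b} ≠ (⊥ : Ideal B) := by
    rwa [Ne, Ideal.span_singleton_eq_bot]
  rw [intValuation_eq_exp_neg_multiplicity p hN, ← Ideal.relNorm_singleton,
    multiplicity_relNorm p T hT _ hspan]
  have h3 : ∀ P ∈ T, P.intValuation b ^ P.asIdeal.inertiaDeg A =
      WithZero.exp (-((P.asIdeal.inertiaDeg A * multiplicity P.asIdeal (Ideal.span {b}) : ℕ) : ℤ)) := by
    intro P _
    rw [intValuation_eq_exp_neg_multiplicity P hb, ← WithZero.exp_nsmul]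
    congr 1
    push_cast
    simp only [nsmul_eq_mul]
    ring
  rw [Finset.prod_congr rfl h3]
  clear h3 hT
  induction T using Finset.induction_on with
  | empty => simp
  | insert P T' hP ih =>
    rw [Finset.sum_insert hP, Finset.prod_insert hP, ← ih, ← WithZero.exp_add]
    congr 1
    push_cast
    ring

/-- the norm formula on the image of `B` -/
theorem valuation_norm_algebraMap (p : HeightOneSpectrum A) (T : Finset (HeightOneSpectrum B))
    (hT : ∀ P : HeightOneSpectrum B, P ∈ T ↔ P.asIdeal.LiesOver p.asIdeal)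
    (b : B) (hb : b ≠ 0) :
    p.valuation K (Algebra.norm K (algebraMap B L b)) =
      ∏ P ∈ T, P.valuation L (algebraMap B L b) ^ P.asIdeal.inertiaDeg A := by
  rw [← h2nv_algebraMap_intNorm (A := A) (K := K) (L := L) (B := B) b,
    valuation_of_algebraMap, intValuation_intNorm p T hT b hb]
  refine Finset.prod_congr rfl fun P _ => ?_
  rw [valuation_of_algebraMap]

/-- **the norm formula for adic valuations** -/
theorem valuation_norm (p : HeightOneSpectrum A) (T : Finset (HeightOneSpectrum B))
    (hT : ∀ P : HeightOneSpectrum B, P ∈ T ↔ P.asIdeal.LiesOver p.asIdeal)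
    (x : L) (hx : x ≠ 0) :
    p.valuation K (Algebra.norm K x) =
      ∏ P ∈ T, P.valuation L x ^ P.asIdeal.inertiaDeg A := by
  obtain ⟨a, c, hc, rfl⟩ := IsFractionRing.div_surjective (A := B) x
  have hc0 : c ≠ 0 := nonZeroDivisors.ne_zero hc
  have hc0' : algebraMap B L c ≠ 0 := by
    intro h
    exact hc0 ((IsFractionRing.injective B L) (by rw [h, map_zero]))
  have ha0 : a ≠ 0 := by
    rintro rfl
    simp at hx
  have hmul : algebraMap B L a / algebraMap B L c * algebraMap B L c = algebraMap B L a :=
    div_mul_cancel₀ _ hc0'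
  have hL := valuation_norm_algebraMap (K := K) (L := L) p T hT a ha0
  have hR := valuation_norm_algebraMap (K := K) (L := L) p T hT c hc0
  have hNc : p.valuation K (Algebra.norm K (algebraMap B L c)) ≠ 0 := by
    rw [Valuation.ne_zero_iff, Ne, Algebra.norm_eq_zero_iff]
    exact hc0'
  have h1 : p.valuation K (Algebra.norm K (algebraMap B L a / algebraMap B L c)) *
      p.valuation K (Algebra.norm K (algebraMap B L c)) =
      p.valuation K (Algebra.norm K (algebraMap B L a)) := by
    rw [← map_mul, ← map_mul, hmul]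
  have h2 : (∏ P ∈ T, P.valuation L (algebraMap B L a / algebraMap B L c) ^ P.asIdeal.inertiaDeg A) *
      (∏ P ∈ T, P.valuation L (algebraMap B L c) ^ P.asIdeal.inertiaDeg A) =
      ∏ P ∈ T, P.valuation L (algebraMap B L a) ^ P.asIdeal.inertiaDeg A := by
    rw [← Finset.prod_mul_distrib]
    refine Finset.prod_congr rfl fun P _ => ?_
    rw [← mul_pow, ← map_mul, hmul]
  rw [← hL, ← hR] at h2
  exact mul_right_cancel₀ hNc (h1.trans h2.symm)

end element

end H2NV

end
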