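/-
helper27, item 79 (S37) slice R0, generic function-field half, part FF3:
the norm formula `∑_{w | v} f(w|v) ord_w x = ord_v (N_{F'/F} x)` for places
(characteristic zero; the local norm formula is helper2's `H2NV.valuation_norm`).
-/
import Mathlib
import Fermat.Prelude.Def_AlgebraicCurve_DivisorPushPull
import Fermat.Agent.FF.FiberEquiv
import Fermat.Agent.FF.SumRam
import Fermat.Agent.FF.CharZero
import Fermat.Agent.FF.NormVal_helper2

set_option autoImplicit false
set_option linter.style.haveILetI false
set_option linter.deprecated false
set_option linter.unusedSectionVars false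

noncomputable section

open AlgebraicCurve IsDedekindDomain IntermediateField
open scoped WithZero

namespace H27FF

theorem h27ff_log_prod {ι : Type*} (s : Finset ι) (g : ι → ℤᵐ⁰) (hg : ∀ i ∈ s, g i ≠ 0) :
    WithZero.log (∏ i ∈ s, g i) = ∑ i ∈ s, WithZero.log (g i) := by
  classical
  induction s using Finset.induction_on with
  | empty => simp
  | insert a s ha ih =>
    rw [Finset.prod_insert ha, Finset.sum_insert ha,
      WithZero.log_mul (hg a (Finset.mem_insert_self a s))
        (Finset.prod_ne_zero_iff.mpr fun i hi => hg i (Finset.mem_insert_of_mem hi)),
      ih fun i hi => hg i (Finset.mem_insert_of_mem hi)]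

variable {K F F' : Type*} [Field K] [Field F] [Field F'] [Algebra K F] [Algebra K F']
  [Algebra F F'] [IsScalarTower K F F']

attribute [local instance] h27ff_tower h27ff_isFractionRing h27ff_isDedekindDomain h27ff_finite

section Norm

variable [FiniteDimensional F F'] [Algebra.IsSeparable F F'] [Algebra.IsIntegral F F']

theorem h27ff_isTorsionFree (v : Place K F) :
    Module.IsTorsionFree v.toValuationSubring (integralClosure v.toValuationSubring F') := by
  haveI : Module.IsTorsionFree v.toValuationSubring F' := by
    rw [Module.isTorsionFree_iff_algebraMap_injective]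
    intro a b h
    exact Subtype.ext ((algebraMap F F').injective h)
  infer_instance

attribute [local instance] h27ff_isTorsionFree

/-- the new-style inertia degree of `P` is one if its place has degree one -/
theorem h27ff_inertiaDeg_new (v : Place K F)
    (P : HeightOneSpectrum (integralClosure v.toValuationSubring F'))
    (hdeg : (H27L6.h27_placeOf (F := F') K (integralClosure v.toValuationSubring F') P).deg = 1) :
    P.asIdeal.inertiaDeg v.toValuationSubring = 1 := by
  haveI := h27ff_liesOver v P
  haveI : P.asIdeal.IsMaximal := P.isMaximal
  rw [← Ideal.inertiaDeg'_eq_inertiaDeg (IsLocalRing.maximalIdeal v.toValuationSubring) P.asIdeal]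
  exact h27ff_inertiaDeg v P hdeg

/-- **local norm formula** for places (all places of degree one), given the local norm formula
for the adic valuations. -/
theorem h27ff_ord_norm_of (v : Place K F)
    [Fintype (HeightOneSpectrum (integralClosure v.toValuationSubring F'))]
    (hdeg : ∀ w : Place K F', w.deg = 1) (x : F') (hx : x ≠ 0)
    (hnorm : v.heightOneSpectrum.valuation F (Algebra.norm F x) =
      ∏ P : HeightOneSpectrum (integralClosure v.toValuationSubring F'),
        P.valuation F' x ^ P.asIdeal.inertiaDeg v.toValuationSubring) :
    v.ord (Algebra.norm F x)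
      = ∑ P : HeightOneSpectrum (integralClosure v.toValuationSubring F'),
          (H27L6.h27_placeOf (F := F') K (integralClosure v.toValuationSubring F') P).ord x := by
  have h1 : v.ord (Algebra.norm F x) = -(WithZero.log (v.heightOneSpectrum.valuation F
      (Algebra.norm F x))) := rfl
  rw [h1, hnorm, h27ff_log_prod, ← Finset.sum_neg_distrib]
  · refine Finset.sum_congr rfl fun P _ => ?_
    rw [h27ff_inertiaDeg_new v P (hdeg _), pow_one, H27L6.h27_placeOf_ord]
  · intro P _
    exact pow_ne_zero _ ((Valuation.ne_zero_iff _).mpr hx)

variable [HasPrincipalDivisors K F']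

/-- **FF3** (generic form with the local norm formula as a hypothesis). -/
theorem h27ff_pushforward_norm_of (hdeg : ∀ w : Place K F', w.deg = 1)
    (hnorm : ∀ (v : Place K F)
      [Fintype (HeightOneSpectrum (integralClosure v.toValuationSubring F'))]
      (x : F'), x ≠ 0 →
      v.heightOneSpectrum.valuation F (Algebra.norm F x) =
        ∏ P : HeightOneSpectrum (integralClosure v.toValuationSubring F'),
          P.valuation F' x ^ P.asIdeal.inertiaDeg v.toValuationSubring) :
    Divisor.PushforwardNormFormula K F F' := by
  intro x hx D hD v
  haveI := h27ff_finite_primes (F' := F') v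
  letI : Fintype (HeightOneSpectrum (integralClosure v.toValuationSubring F')) :=
    Fintype.ofFinite _
  rw [h27ff_pushforward_eq_sum D hD v, h27ff_ord_norm_of v hdeg x hx (hnorm v x hx),
    ← h27ff_sum_fiber v (fun w => w.ord x)]
  refine Finset.sum_congr rfl fun w _ => ?_
  rw [h27ff_inertiaDeg_place w (hdeg w), Nat.cast_one, mul_one]

end Norm

section CharZero

variable [IsAlgClosed K] [CharZero K]

/-- **FF3** in characteristic zero. -/
theorem h27ff_pushforwardNormFormula_charZero (z : F) (hz : Transcendental K z)
    [FiniteDimensional K⟮z⟯ F] [FiniteDimensional F F'] [Algebra.IsIntegral F F']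
    [HasPrincipalDivisors K F'] : Divisor.PushforwardNormFormula K F F' := by
  haveI := h27ff_isSeparable (K := K) F F'
  haveI : CharZero F := charZero_of_injective_algebraMap (algebraMap K F).injective
  refine h27ff_pushforward_norm_of (fun w => h27ff_deg_eq_one_top z hz w) ?_
  intro v _ x hx
  haveI : CharZero v.toValuationSubring :=
    charZero_of_injective_algebraMap (R := K) (algebraMap K v.toValuationSubring).injective
  haveI : CharZero (FractionRing v.toValuationSubring) :=
    charZero_of_injective_algebraMap
      (IsFractionRing.injective v.toValuationSubring (FractionRing v.toValuationSubring))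
  exact H2NV.valuation_norm (K := F) (L := F') v.heightOneSpectrum Finset.univ
    (fun P => ⟨fun _ => h27ff_liesOver v P, fun _ => Finset.mem_univ _⟩) x hx

end CharZero

end H27FF

end
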