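/-
helper27 + helper2, item 79 (S37) slice R0, final wiring:
`ModularCurve.HeckeInputsAlong ℚ̄ N ℓ` for all `N`, `ℓ`, hence `H8S37.R0Statement N`.
-/
import Mathlib
import Fermat.Agent.S37.Defs
import Fermat.Agent.S37.R0Mod_helper2
import Fermat.Agent.FF.PrincipalDivisors
import Fermat.Agent.FF.CharZero
import Fermat.Agent.FF.NormFormula

set_option autoImplicit false
set_option linter.style.haveILetI false
set_option linter.unusedSectionVars false

noncomputable section

open AlgebraicCurve IntermediateField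

namespace H27FF

theorem h27ff_FF1Statement : H2R0.FF1Statement := by
  intro F _ _ z hz hfd
  exact h27ff_hasPrincipalDivisors z hz

theorem h27ff_FF2Statement : H2R0.FF2Statement := by
  intro F F' _ _ _ _ _ _ _ _ _ z hz hfd
  exact h27ff_fundamentalIdentity_charZero z hz

theorem h27ff_FF3Statement : H2R0.FF3Statement := by
  intro F F' _ _ _ _ _ _ _ _ _ z hz hfd
  exact h27ff_pushforwardNormFormula_charZero z hz

/-- **R0**: the Hecke inputs hold for all `N`, `ℓ`. -/
theorem h27ff_heckeInputsAlong (N ℓ : ℕ) [NeZero N] [NeZero ℓ] :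
    ModularCurve.HeckeInputsAlong (AlgebraicClosure ℚ) N ℓ :=
  H2R0.heckeInputsAlong_of_generic N ℓ h27ff_FF1Statement h27ff_FF2Statement h27ff_FF3Statement

/-- **R0** in the form of helper8's `Defs`. -/
theorem h27ff_R0Statement (N : ℕ) [NeZero N] : H8S37.R0Statement N := by
  intro ℓ hℓ _
  haveI : NeZero ℓ := ⟨hℓ.ne_zero⟩
  exact h27ff_heckeInputsAlong N ℓ

end H27FF

end
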